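import Mathlib
import Fermat.Agent.MUL.S28.Eval
import Fermat.Agent.MUL.S28.RedKernel
import Fermat.Agent.MUL.S28.DescentD3

section MergeWrap_Lib_GaussVal_Triple -- from Lib/GaussVal/Triple.lean

/-!
# Gauss valuation (cluster B): valuation triples and the Gauss lemma

`VTriple ι r` : `ι : R → L` is (the inclusion of) a valuation ring of the field `L`, `r : R → k` a ring
homomorphism to a field whose kernel consists of the non-units of `R`.
`GTriple ι cQ cR i ρ` : Gauss-normalisation data for `i : SR → SQ`, `ρ : SR → Sk` with scalars from `L`.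
It holds for `(L, R, k)` and is inherited by polynomial rings (Gauss' lemma, no discreteness needed).
-/

set_option autoImplicit false

namespace Fermat.Agent.GaussVal

open Polynomial

noncomputable section

variable {L R k : Type*} [Field L] [CommRing R] [Field k]

/-- A valuation triple: `R ⊆ L` a valuation ring, `r : R → k` with kernel the non-units. -/
structure VTriple (ι : R →+* L) (r : R →+* k) : Prop where
  inj : Function.Injective ι
  total : ∀ x : L, x ≠ 0 → (∃ s, ι s = x) ∨ (∃ s, ι s = x⁻¹)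
  unit : ∀ s : R, r s ≠ 0 → ∃ s', s * s' = 1

variable {ι : R →+* L} {r : R →+* k}

/-- In a finite nonempty family of nonzero elements of `L` one of them divides all the others. -/
theorem VTriple.exists_min (h : VTriple ι r) {I : Type*} (s : Finset I) (hs : s.Nonempty)
    (x : I → L) (hx : ∀ i ∈ s, x i ≠ 0) :
    ∃ i₀ ∈ s, ∀ i ∈ s, ∃ a : R, ι a = x i / x i₀ := by
  classical
  induction hs using Finset.Nonempty.cons_induction with
  | singleton i =>
    refine ⟨i, Finset.mem_singleton_self i, fun i' hi' => ?_⟩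
    rw [Finset.mem_singleton] at hi'
    subst hi'
    exact ⟨1, by rw [map_one, div_self (hx _ (Finset.mem_singleton_self _))]⟩
  | cons i s hi hs ih =>
    have hxs : ∀ i' ∈ s, x i' ≠ 0 := fun i' hi' => hx i' (Finset.mem_cons.mpr (Or.inr hi'))
    have hxi : x i ≠ 0 := hx i (Finset.mem_cons_self i s)
    obtain ⟨i₁, hi₁, hmin⟩ := ih hxs
    have hxi₁ : x i₁ ≠ 0 := hxs i₁ hi₁
    rcases h.total (x i / x i₁) (div_ne_zero hxi hxi₁) with ⟨a, ha⟩ | ⟨a, ha⟩
    · refine ⟨i₁, Finset.mem_cons.mpr (Or.inr hi₁), fun i' hi' => ?_⟩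
      rcases Finset.mem_cons.mp hi' with rfl | hi'
      · exact ⟨a, ha⟩
      · exact hmin i' hi'
    · refine ⟨i, Finset.mem_cons_self i s, fun i' hi' => ?_⟩
      rcases Finset.mem_cons.mp hi' with rfl | hi'
      · exact ⟨1, by rw [map_one, div_self hxi]⟩
      · obtain ⟨b, hb⟩ := hmin i' hi'
        refine ⟨b * a, ?_⟩
        rw [map_mul, hb, ha, inv_div]
        field_simp

/-- Gauss-normalisation data: `i : SR → SQ` injective, and every nonzero `x : SQ` can be scaled by a
constant `c ∈ Lˣ` into `i(SR)` with nonzero reduction. -/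
structure GTriple (ι : R →+* L) {SQ SR Sk : Type*} [CommRing SQ] [CommRing SR] [CommRing Sk]
    (cQ : L →+* SQ) (cR : R →+* SR) (i : SR →+* SQ) (ρ : SR →+* Sk) : Prop where
  inj : Function.Injective i
  comm : ∀ a, i (cR a) = cQ (ι a)
  nrm : ∀ x : SQ, x ≠ 0 → ∃ (c : L) (s : SR), c ≠ 0 ∧ ρ s ≠ 0 ∧ cQ c * x = i s

theorem gTriple_base (h : VTriple ι r) : GTriple ι (RingHom.id L) (RingHom.id R) ι r where
  inj := h.inj
  comm := fun _ => rfl
  nrm := fun x hx => ⟨x⁻¹, 1, inv_ne_zero hx, by rw [map_one]; exact one_ne_zero, by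
    rw [RingHom.id_apply, inv_mul_cancel₀ hx, map_one]⟩

section General

variable {SQ SR Sk : Type*} [CommRing SQ] [CommRing SR] [CommRing Sk]
  {cQ : L →+* SQ} {cR : R →+* SR} {i : SR →+* SQ} {ρ : SR →+* Sk}

/-- The kernel of the reduction is generated by the constants of the maximal ideal. -/
theorem GTriple.ker (hv : VTriple ι r) (h : GTriple ι cQ cR i ρ) (s : SR) (hs : ρ s = 0) :
    ∃ (b : R) (s' : SR), r b = 0 ∧ s = cR b * s' := by
  by_cases hs0 : s = 0
  · exact ⟨0, 0, map_zero r, by rw [hs0, mul_zero]⟩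
  have his : i s ≠ 0 := fun h0 => hs0 (h.inj (by rw [h0, map_zero]))
  obtain ⟨c, s', hc, hs', heq⟩ := h.nrm (i s) his
  have hcase1 : ∀ a : R, ι a = c → False := by
    intro a ha
    have h1 : i (cR a * s) = i s' := by rw [map_mul, h.comm, ha, heq]
    have h2 := h.inj h1
    apply hs'
    rw [← h2, map_mul, hs, mul_zero]
  rcases hv.total c hc with ⟨a, ha⟩ | ⟨b, hb⟩
  · exact (hcase1 a ha).elim
  · refine ⟨b, s', ?_, ?_⟩
    · by_contra hrb
      obtain ⟨b', hb'⟩ := hv.unit b hrb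
      apply hcase1 b'
      have h1 : ι b * ι b' = 1 := by rw [← map_mul, hb', map_one]
      rw [hb] at h1
      have := congrArg (fun t => c * t) h1
      simp only [mul_one] at this
      rw [← mul_assoc, mul_inv_cancel₀ hc, one_mul] at this
      exact this
    · apply h.inj
      rw [map_mul, h.comm, hb, ← heq, ← mul_assoc, ← map_mul, inv_mul_cancel₀ hc, map_one, one_mul]

/-- Gauss triples are inherited by polynomial rings (Gauss' lemma). -/
theorem GTriple.polynomial (hv : VTriple ι r) (h : GTriple ι cQ cR i ρ) :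
    GTriple ι ((C : SQ →+* SQ[X]).comp cQ) ((C : SR →+* SR[X]).comp cR)
      (mapRingHom i) (mapRingHom ρ) where
  inj := Polynomial.map_injective i h.inj
  comm := fun a => by
    simp only [RingHom.comp_apply, coe_mapRingHom, Polynomial.map_C, h.comm]
  nrm := by
    classical
    intro P hP
    have hex : ∀ n, P.coeff n ≠ 0 → ∃ (c : L) (s : SR), c ≠ 0 ∧ ρ s ≠ 0 ∧
        cQ c * P.coeff n = i s := fun n hn => h.nrm _ hn
    choose! c s hc using hex
    have hne : P.support.Nonempty := by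
      rw [Finset.nonempty_iff_ne_empty, Ne, support_eq_empty]; exact hP
    have hcne : ∀ n ∈ P.support, (c n)⁻¹ ≠ 0 := fun n hn =>
      inv_ne_zero (hc n (mem_support_iff.mp hn)).1
    obtain ⟨n₀, hn₀, hmin⟩ := hv.exists_min P.support hne (fun n => (c n)⁻¹) hcne
    choose! a ha using hmin
    have hc₀ := (hc n₀ (mem_support_iff.mp hn₀)).1
    refine ⟨c n₀, ∑ n ∈ P.support, monomial n (cR (a n) * s n), hc₀, ?_, ?_⟩
    · intro hzero
      have := congrArg (fun Q => Polynomial.coeff Q n₀) hzero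
      simp only [coe_mapRingHom, coeff_map, finsetSum_coeff, coeff_monomial, coeff_zero] at this
      rw [Finset.sum_ite_eq' P.support n₀, if_pos hn₀] at this
      have ha₀ : a n₀ = 1 := by
        apply hv.inj
        rw [ha n₀ hn₀, div_self (inv_ne_zero hc₀), map_one]
      have hρ1 : ρ (cR 1) = 1 := by rw [map_one, map_one]
      rw [ha₀, map_mul, hρ1, one_mul] at this
      exact (hc n₀ (mem_support_iff.mp hn₀)).2.1 this
    · ext m
      rw [RingHom.comp_apply, coeff_C_mul, coe_mapRingHom, coeff_map, finsetSum_coeff]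
      simp only [coeff_monomial]
      rw [Finset.sum_ite_eq' P.support m]
      by_cases hm : m ∈ P.support
      · rw [if_pos hm, map_mul, h.comm, ha m hm, ← (hc m (mem_support_iff.mp hm)).2.2,
          ← mul_assoc, ← map_mul]
        congr 2
        have hcm := (hc m (mem_support_iff.mp hm)).1
        field_simp
      · rw [if_neg hm, map_zero, notMem_support_iff.mp hm, mul_zero]

end General

section Instances

variable (hv : VTriple ι r)
include hv

theorem gTriple_poly1 :
    GTriple ι (C : L →+* L[X]) (C : R →+* R[X]) (mapRingHom ι) (mapRingHom r) := by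
  have := (gTriple_base hv).polynomial hv
  simpa using this

theorem gTriple_poly2 :
    GTriple ι ((C : L[X] →+* L[X][X]).comp (C : L →+* L[X]))
      ((C : R[X] →+* R[X][X]).comp (C : R →+* R[X]))
      (mapRingHom (mapRingHom ι)) (mapRingHom (mapRingHom r)) :=
  (gTriple_poly1 hv).polynomial hv

/-- normalisation of a nonzero polynomial in one variable -/
theorem VTriple.nrm1 (g : L[X]) (hg : g ≠ 0) :
    ∃ (c : L) (g₀ : R[X]), c ≠ 0 ∧ g₀.map r ≠ 0 ∧ C c * g = g₀.map ι :=
  (gTriple_poly1 hv).nrm g hg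

/-- normalisation of a nonzero polynomial in two variables -/
theorem VTriple.nrm2 (P : L[X][X]) (hP : P ≠ 0) :
    ∃ (c : L) (P₀ : R[X][X]), c ≠ 0 ∧ P₀.map (mapRingHom r) ≠ 0 ∧
      C (C c) * P = P₀.map (mapRingHom ι) :=
  (gTriple_poly2 hv).nrm P hP

/-- kernel of the reduction of polynomials in two variables -/
theorem VTriple.ker2 (P : R[X][X]) (hP : P.map (mapRingHom r) = 0) :
    ∃ (b : R) (P' : R[X][X]), r b = 0 ∧ P = C (C b) * P' :=
  (gTriple_poly2 hv).ker hv P hP

/-- kernel of the reduction of polynomials in one variable -/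
theorem VTriple.ker1 (g : R[X]) (hg : g.map r = 0) :
    ∃ (b : R) (g' : R[X]), r b = 0 ∧ g = C b * g' :=
  (gTriple_poly1 hv).ker hv g hg

end Instances

/-- The valuation triple of a valuation subring. -/
theorem vTriple_valuationSubring (A : ValuationSubring L) :
    VTriple (R := A) (k := IsLocalRing.ResidueField A) A.subtype (IsLocalRing.residue A) where
  inj := Subtype.val_injective
  total := fun x _ => by
    rcases A.mem_or_inv_mem x with h | h
    · exact Or.inl ⟨⟨x, h⟩, rfl⟩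
    · exact Or.inr ⟨⟨x⁻¹, h⟩, rfl⟩
  unit := fun s hs => by
    have hu : IsUnit s := by
      by_contra hnu
      exact hs ((IsLocalRing.residue_eq_zero_iff s).mpr ((IsLocalRing.mem_maximalIdeal s).mpr hnu))
    obtain ⟨u, rfl⟩ := hu
    exact ⟨↑u⁻¹, by simp⟩

end

end Fermat.Agent.GaussVal
end MergeWrap_Lib_GaussVal_Triple

section MergeWrap_Lib_GaussVal_Ring -- from Lib/GaussVal/Ring.lean

/-!
# Gauss valuation (cluster B): the ring `O_v` and its reduction map `ρ`

Setting: a valuation triple `ι : R → L`, `r : R → k`, and `jR uR : R((q))`.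
`Ov ⊂ L((q))` is the set of `x` with `x · g(j) = P(j,u)` for some `g ∈ R[Y]`, `ḡ ≠ 0`, `P ∈ R[Y][X]`.
The reduction `ρ : Ov → k((q))`, `x ↦ P̄(j̄,ū) / ḡ(j̄)`, is a ring homomorphism.
(Port of `Fermat.Agent.S28.RedRing` from `Z_(ℓ) ⊂ ℚ` to an arbitrary valuation ring.)
-/

set_option autoImplicit false

namespace Fermat.Agent.GaussVal

open Polynomial ModularCurve Fermat.Agent.S28

noncomputable section

variable {L R k : Type*} [Field L] [CommRing R] [Field k]
variable (ι : R →+* L) (r : R →+* k)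
variable (jR uR : LaurentSeries R)

/-- Membership in `O_v`. -/
def InOv (x : LaurentSeries L) : Prop :=
  ∃ g : R[X], g.map r ≠ 0 ∧
    ∃ P : R[X][X], x * coeffMap ι (pev1 jR g) = coeffMap ι (pev2 jR uR P)

theorem inOv_of_eq {x : LaurentSeries L} (P : R[X][X])
    (h : x = coeffMap ι (pev2 jR uR P)) : InOv ι r jR uR x :=
  ⟨1, by rw [Polynomial.map_one]; exact one_ne_zero, P, by rw [map_one, map_one, mul_one, h]⟩

theorem inOv_add {x y : LaurentSeries L} (hx : InOv ι r jR uR x) (hy : InOv ι r jR uR y) :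
    InOv ι r jR uR (x + y) := by
  obtain ⟨g, hg, P, hP⟩ := hx
  obtain ⟨g', hg', P', hP'⟩ := hy
  refine ⟨g * g', ?_, P * C g' + P' * C g, ?_⟩
  · rw [Polynomial.map_mul]; exact mul_ne_zero hg hg'
  · simp only [map_add, map_mul, pev2_C]
    rw [← hP, ← hP']; ring

theorem inOv_mul {x y : LaurentSeries L} (hx : InOv ι r jR uR x) (hy : InOv ι r jR uR y) :
    InOv ι r jR uR (x * y) := by
  obtain ⟨g, hg, P, hP⟩ := hx
  obtain ⟨g', hg', P', hP'⟩ := hy
  refine ⟨g * g', ?_, P * P', ?_⟩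
  · rw [Polynomial.map_mul]; exact mul_ne_zero hg hg'
  · simp only [map_mul]
    rw [← hP, ← hP']; ring

theorem inOv_neg {x : LaurentSeries L} (hx : InOv ι r jR uR x) : InOv ι r jR uR (-x) := by
  obtain ⟨g, hg, P, hP⟩ := hx
  refine ⟨g, hg, -P, ?_⟩
  rw [map_neg, map_neg, ← hP, neg_mul]

/-- The ring `O_v` (Gauss valuation ring, as a subring of `L((q))`). -/
def Ov : Subring (LaurentSeries L) where
  carrier := {x | InOv ι r jR uR x}
  mul_mem' := fun hx hy => inOv_mul ι r jR uR hx hy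
  one_mem' := inOv_of_eq ι r jR uR 1 (by rw [map_one, map_one])
  add_mem' := fun hx hy => inOv_add ι r jR uR hx hy
  zero_mem' := inOv_of_eq ι r jR uR 0 (by rw [map_zero, map_zero])
  neg_mem' := fun hx => inOv_neg ι r jR uR hx

theorem mem_Ov_iff {x : LaurentSeries L} : x ∈ Ov ι r jR uR ↔ InOv ι r jR uR x := Iff.rfl

theorem coeffMap_pev2_mem (P : R[X][X]) : coeffMap ι (pev2 jR uR P) ∈ Ov ι r jR uR :=
  inOv_of_eq ι r jR uR P rfl

/-- raw reduction function -/
def rhoFun (x : ↥(Ov ι r jR uR)) : LaurentSeries k :=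
  coeffMap r (pev2 jR uR ((mem_Ov_iff ι r jR uR).mp x.2).choose_spec.2.choose) /
    coeffMap r (pev1 jR ((mem_Ov_iff ι r jR uR).mp x.2).choose)

variable {ι r jR uR}

/-- **kernel of reduction** on `R[j,u]`: generated by constants of the maximal ideal. -/
theorem reduction_kernel' (hv : VTriple ι r) {n : ℕ}
    (χR : R[X][X]) (hχm : χR.Monic) (hχd : χR.natDegree = n) (hn : 0 < n)
    (hχu : pev2 jR uR χR = 0)
    (hind : IndepUpTo (coeffMap r jR) (coeffMap r uR) n)
    (P : R[X][X]) (hP : coeffMap r (pev2 jR uR P) = 0) :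
    ∃ (b : R) (P' : R[X][X]), r b = 0 ∧
      pev2 jR uR P = HahnSeries.C b * pev2 jR uR P' := by
  have hχ1 : χR ≠ 1 := by
    intro h
    rw [h, natDegree_one] at hχd
    omega
  set P₀ := P %ₘ χR with hP₀
  have hdiv : P₀ + χR * (P /ₘ χR) = P := modByMonic_add_div P χR
  have hev : pev2 jR uR P = pev2 jR uR P₀ := by
    conv_lhs => rw [← hdiv]
    rw [map_add, map_mul, hχu, zero_mul, add_zero]
  have hdeg : P₀.natDegree < n := by
    rw [← hχd]; exact natDegree_modByMonic_lt P hχm hχ1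
  have hred : P₀.map (mapRingHom r) = 0 := by
    apply hind
    · exact lt_of_le_of_lt natDegree_map_le hdeg
    · rw [← coeffMap_pev2, ← hev, hP]
  obtain ⟨b, P', hb, hP'⟩ := hv.ker2 P₀ hred
  refine ⟨b, P', hb, ?_⟩
  rw [hev, hP', map_mul, pev2_C, pev1_C]

theorem red_pev1_ne_zero (hinj : Function.Injective (pev1 (coeffMap r jR)))
    {g : R[X]} (hg : g.map r ≠ 0) : coeffMap r (pev1 jR g) ≠ 0 := by
  rw [coeffMap_pev1]
  intro h
  exact hg (hinj (by rw [h, map_zero]))

theorem rhoFun_eq (hι : Function.Injective ι) (hinj : Function.Injective (pev1 (coeffMap r jR)))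
    (x : ↥(Ov ι r jR uR)) {g : R[X]} (hg : g.map r ≠ 0) {P : R[X][X]}
    (h : (x : LaurentSeries L) * coeffMap ι (pev1 jR g) = coeffMap ι (pev2 jR uR P)) :
    rhoFun ι r jR uR x = coeffMap r (pev2 jR uR P) / coeffMap r (pev1 jR g) := by
  have hx := (mem_Ov_iff ι r jR uR).mp x.2
  have hg₀ := hx.choose_spec.1
  have h₀ := hx.choose_spec.2.choose_spec
  have hcross : pev2 jR uR hx.choose_spec.2.choose * pev1 jR g =
      pev2 jR uR P * pev1 jR hx.choose := by
    apply coeffMap_injective hι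
    rw [map_mul, map_mul, ← h₀, ← h]; ring
  have hcross' := congrArg (coeffMap r) hcross
  rw [map_mul, map_mul] at hcross'
  show coeffMap r (pev2 jR uR hx.choose_spec.2.choose) / coeffMap r (pev1 jR hx.choose) = _
  rw [div_eq_div_iff (red_pev1_ne_zero hinj hg₀) (red_pev1_ne_zero hinj hg)]
  exact hcross'

variable (ι r jR uR)

/-- The reduction map `ρ : O_v → k((q))`. -/
def rho (hι : Function.Injective ι) (hinj : Function.Injective (pev1 (coeffMap r jR))) :
    ↥(Ov ι r jR uR) →+* LaurentSeries k where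
  toFun x := rhoFun ι r jR uR x
  map_one' := by
    have h : ((1 : ↥(Ov ι r jR uR)) : LaurentSeries L) * coeffMap ι (pev1 jR 1) =
        coeffMap ι (pev2 jR uR 1) := by
      simp only [map_one, mul_one, Subring.coe_one]
    have h1 : ((1 : R[X]).map r) ≠ 0 := by
      rw [Polynomial.map_one]; exact one_ne_zero
    rw [rhoFun_eq hι hinj _ h1 h]
    simp only [map_one, div_one]
  map_zero' := by
    have h : ((0 : ↥(Ov ι r jR uR)) : LaurentSeries L) * coeffMap ι (pev1 jR 1) =
        coeffMap ι (pev2 jR uR 0) := by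
      simp only [map_zero, zero_mul, Subring.coe_zero]
    have h1 : ((1 : R[X]).map r) ≠ 0 := by
      rw [Polynomial.map_one]; exact one_ne_zero
    rw [rhoFun_eq hι hinj _ h1 h]
    simp only [map_zero, zero_div]
  map_mul' := by
    intro x y
    obtain ⟨g, hg, P, hP⟩ := (mem_Ov_iff ι r jR uR).mp x.2
    obtain ⟨g', hg', P', hP'⟩ := (mem_Ov_iff ι r jR uR).mp y.2
    have hgg : (g * g').map r ≠ 0 := by
      rw [Polynomial.map_mul]; exact mul_ne_zero hg hg'
    have hmul : ((x * y : ↥(Ov ι r jR uR)) : LaurentSeries L) * coeffMap ι (pev1 jR (g * g')) =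
        coeffMap ι (pev2 jR uR (P * P')) := by
      simp only [map_mul, Subring.coe_mul]
      rw [← hP, ← hP']; ring
    rw [rhoFun_eq hι hinj _ hgg hmul, rhoFun_eq hι hinj x hg hP, rhoFun_eq hι hinj y hg' hP']
    simp only [map_mul]
    rw [div_mul_div_comm]
  map_add' := by
    intro x y
    obtain ⟨g, hg, P, hP⟩ := (mem_Ov_iff ι r jR uR).mp x.2
    obtain ⟨g', hg', P', hP'⟩ := (mem_Ov_iff ι r jR uR).mp y.2
    have hgg : (g * g').map r ≠ 0 := by
      rw [Polynomial.map_mul]; exact mul_ne_zero hg hg'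
    have hadd : ((x + y : ↥(Ov ι r jR uR)) : LaurentSeries L) * coeffMap ι (pev1 jR (g * g')) =
        coeffMap ι (pev2 jR uR (P * C g' + P' * C g)) := by
      simp only [map_add, map_mul, pev2_C, Subring.coe_add]
      rw [← hP, ← hP']; ring
    rw [rhoFun_eq hι hinj _ hgg hadd, rhoFun_eq hι hinj x hg hP, rhoFun_eq hι hinj y hg' hP']
    simp only [map_add, map_mul, pev2_C]
    rw [div_add_div _ _ (red_pev1_ne_zero hinj hg) (red_pev1_ne_zero hinj hg')]
    congr 1
    ring

variable {ι r jR uR}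

theorem rho_eq (hι : Function.Injective ι) (hinj : Function.Injective (pev1 (coeffMap r jR)))
    (x : ↥(Ov ι r jR uR)) {g : R[X]} (hg : g.map r ≠ 0) {P : R[X][X]}
    (h : (x : LaurentSeries L) * coeffMap ι (pev1 jR g) = coeffMap ι (pev2 jR uR P)) :
    rho ι r jR uR hι hinj x = coeffMap r (pev2 jR uR P) / coeffMap r (pev1 jR g) :=
  rhoFun_eq hι hinj x hg h

theorem rho_coeffMap_pev2 (hι : Function.Injective ι)
    (hinj : Function.Injective (pev1 (coeffMap r jR))) (P : R[X][X]) :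
    rho ι r jR uR hι hinj ⟨coeffMap ι (pev2 jR uR P), coeffMap_pev2_mem ι r jR uR P⟩ =
      coeffMap r (pev2 jR uR P) := by
  have h1 : ((1 : R[X]).map r) ≠ 0 := by
    rw [Polynomial.map_one]; exact one_ne_zero
  rw [rho_eq hι hinj _ h1 (P := P) (by simp only [map_one, mul_one])]
  simp only [map_one, div_one]

/-- On elements of `O_v` with coefficients in `R`, `ρ` is the coefficientwise reduction. -/
theorem rho_coeffMap (hι : Function.Injective ι)
    (hinj : Function.Injective (pev1 (coeffMap r jR))) (y : LaurentSeries R)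
    (hy : coeffMap ι y ∈ Ov ι r jR uR) :
    rho ι r jR uR hι hinj ⟨coeffMap ι y, hy⟩ = coeffMap r y := by
  obtain ⟨g, hg, P, hP⟩ := (mem_Ov_iff ι r jR uR).mp hy
  rw [rho_eq hι hinj ⟨_, hy⟩ hg hP, div_eq_iff (red_pev1_ne_zero hinj hg)]
  have h1 : y * pev1 jR g = pev2 jR uR P := by
    apply coeffMap_injective hι
    rw [map_mul]; exact hP
  rw [← h1, map_mul]

end

end Fermat.Agent.GaussVal
end MergeWrap_Lib_GaussVal_Ring

section MergeWrap_Lib_GaussVal_Rational -- from Lib/GaussVal/Rational.lean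

/-!
# Gauss valuation (cluster B): the field `L(j)[u]` inside `L((q))`

`InTL j u x` : `x · g(j) = P(j,u)` for some `g ≠ 0`.  If `j` is transcendental and `u` is a root of a
monic polynomial over `L[j]`, these `x` form the field `L(j,u)`.
(Port of `Fermat.Agent.S28.DescentD3` part (T) from `ℚ` to an arbitrary field `L`.)
-/

set_option autoImplicit false

namespace Fermat.Agent.GaussVal

open Polynomial ModularCurve Fermat.Agent.S28

noncomputable section

variable {L : Type*} [Field L]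

/-- Rational representation `x · g(j) = P(j,u)`: membership in `L(j)[u]`. -/
def InTL (jL uL : LaurentSeries L) (x : LaurentSeries L) : Prop :=
  ∃ g : L[X], g ≠ 0 ∧ ∃ P : L[X][X], x * pev1 jL g = pev2 jL uL P

variable {jL uL : LaurentSeries L}

theorem inTL_of_pev2 (P : L[X][X]) : InTL jL uL (pev2 jL uL P) :=
  ⟨1, one_ne_zero, P, by rw [map_one, mul_one]⟩

theorem inTL_zero : InTL jL uL 0 := by
  simpa using inTL_of_pev2 (jL := jL) (uL := uL) 0

theorem inTL_one : InTL jL uL 1 := by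
  simpa using inTL_of_pev2 (jL := jL) (uL := uL) 1

theorem inTL_j : InTL jL uL jL := by
  simpa using inTL_of_pev2 (jL := jL) (uL := uL) (C X)

theorem inTL_u : InTL jL uL uL := by
  simpa using inTL_of_pev2 (jL := jL) (uL := uL) X

theorem inTL_C (c : L) : InTL jL uL (HahnSeries.C c) := by
  have h := inTL_of_pev2 (jL := jL) (uL := uL) (C (C c))
  rwa [pev2_C, pev1_C] at h

theorem inTL_algebraMap (c : L) : InTL jL uL (algebraMap L (LaurentSeries L) c) := by
  rw [← hahnC_eq_algebraMap]; exact inTL_C c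

theorem inTL_add {x y : LaurentSeries L} (hx : InTL jL uL x) (hy : InTL jL uL y) :
    InTL jL uL (x + y) := by
  obtain ⟨g₁, hg₁, P₁, h₁⟩ := hx
  obtain ⟨g₂, hg₂, P₂, h₂⟩ := hy
  refine ⟨g₁ * g₂, mul_ne_zero hg₁ hg₂, P₁ * C g₂ + P₂ * C g₁, ?_⟩
  rw [map_mul, map_add, map_mul, map_mul, pev2_C, pev2_C, ← h₁, ← h₂]
  ring

theorem inTL_mul {x y : LaurentSeries L} (hx : InTL jL uL x) (hy : InTL jL uL y) :
    InTL jL uL (x * y) := by
  obtain ⟨g₁, hg₁, P₁, h₁⟩ := hx
  obtain ⟨g₂, hg₂, P₂, h₂⟩ := hy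
  refine ⟨g₁ * g₂, mul_ne_zero hg₁ hg₂, P₁ * P₂, ?_⟩
  rw [map_mul, map_mul, ← h₁, ← h₂]
  ring

theorem inTL_neg {x : LaurentSeries L} (hx : InTL jL uL x) : InTL jL uL (-x) := by
  obtain ⟨g, hg, P, h⟩ := hx
  exact ⟨g, hg, -P, by rw [map_neg, ← h, neg_mul]⟩

/-- Every value `P(j,u)` is integral over `L[j]` (through `pev1 j`). -/
theorem isIntegralElem_pev2 (χL : L[X][X]) (hχm : χL.Monic) (hχu : pev2 jL uL χL = 0)
    (P : L[X][X]) : (pev1 jL).IsIntegralElem (pev2 jL uL P) := by
  have hu : (pev1 jL).IsIntegralElem uL := ⟨χL, hχm, by rwa [← pev2_apply]⟩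
  induction P using Polynomial.induction_on' with
  | add p q hp hq =>
    rw [map_add]; exact RingHom.IsIntegralElem.add _ hp hq
  | monomial n a =>
    have h1 : pev2 jL uL (monomial n a) = pev1 jL a * uL ^ n := by
      rw [pev2_apply, eval₂_monomial]
    rw [h1]
    refine RingHom.IsIntegralElem.mul _ (RingHom.isIntegralElem_map _) ?_
    clear h1
    induction n with
    | zero => rw [pow_zero]; exact RingHom.isIntegralElem_one _
    | succ n ih => rw [pow_succ]; exact RingHom.IsIntegralElem.mul _ ih hu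

theorem inTL_inv (hinj : Function.Injective (pev1 jL))
    (χL : L[X][X]) (hχm : χL.Monic) (hχu : pev2 jL uL χL = 0)
    {x : LaurentSeries L} (hx : InTL jL uL x) : InTL jL uL x⁻¹ := by
  rcases eq_or_ne x 0 with rfl | hx0
  · rw [inv_zero]; exact inTL_zero
  obtain ⟨g, hg, P, hP⟩ := hx
  have hgj : pev1 jL g ≠ 0 := fun h => hg (hinj (by rw [h, map_zero]))
  set w := pev2 jL uL P with hw
  have hw0 : w ≠ 0 := by rw [← hP]; exact mul_ne_zero hx0 hgj
  obtain ⟨p, hpm, hpw⟩ := isIntegralElem_pev2 χL hχm hχu P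
  obtain ⟨q, hqm, hqw, hq0⟩ := d3_exists_monic_coeff_zero_ne (pev1 jL) hw0 p hpm hpw
  have hinv := d3_inv_mul_eq (pev1 jL) hw0 q hqw
  have hcomp : (q.divX).eval₂ (pev1 jL) w =
      pev2 jL uL ((q.divX).eval₂ (C : L[X] →+* L[X][X]) P) := by
    rw [hom_eval₂]
    congr 1
    exact RingHom.ext fun a => (pev2_C jL uL a).symm
  refine ⟨-q.coeff 0, neg_ne_zero.mpr hq0, C g * (q.divX).eval₂ (C : L[X] →+* L[X][X]) P, ?_⟩
  rw [map_mul, pev2_C, ← hcomp, ← hinv]
  have hx' : x⁻¹ = pev1 jL g * w⁻¹ := by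
    rw [← hP, mul_inv, mul_comm x⁻¹, ← mul_assoc, mul_inv_cancel₀ hgj, one_mul]
  rw [hx']
  ring

/-- every element of `L(j, u)` has a representation `x · g(j) = P(j, u)`. -/
theorem inTL_of_mem_adjoin (jL uL : LaurentSeries L) (hinj : Function.Injective (pev1 jL))
    (χL : L[X][X]) (hχm : χL.Monic) (hχu : pev2 jL uL χL = 0)
    {x : LaurentSeries L}
    (hx : x ∈ IntermediateField.adjoin L ({jL, uL} : Set (LaurentSeries L))) :
    InTL jL uL x := by
  induction hx using IntermediateField.adjoin_induction with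
  | mem x hx =>
    rcases hx with rfl | hx
    · exact inTL_j
    · rw [Set.mem_singleton_iff] at hx; rw [hx]; exact inTL_u
  | algebraMap c => exact inTL_algebraMap c
  | add x y _ _ hx hy => exact inTL_add hx hy
  | inv x _ hx => exact inTL_inv hinj χL hχm hχu hx
  | mul x y _ _ hx hy => exact inTL_mul hx hy

/-- conversely, elements with a rational representation lie in `L(j,u)`. -/
theorem mem_adjoin_of_inTL (hinj : Function.Injective (pev1 jL))
    {x : LaurentSeries L} (hx : InTL jL uL x) :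
    x ∈ IntermediateField.adjoin L ({jL, uL} : Set (LaurentSeries L)) := by
  obtain ⟨g, hg, P, hP⟩ := hx
  have hgj : pev1 jL g ≠ 0 := fun h => hg (hinj (by rw [h, map_zero]))
  have hj : jL ∈ IntermediateField.adjoin L ({jL, uL} : Set (LaurentSeries L)) :=
    IntermediateField.subset_adjoin L _ (Set.mem_insert _ _)
  have hu : uL ∈ IntermediateField.adjoin L ({jL, uL} : Set (LaurentSeries L)) :=
    IntermediateField.subset_adjoin L _ (Set.mem_insert_of_mem _ rfl)
  have h1 : ∀ g : L[X], pev1 jL g ∈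
      IntermediateField.adjoin L ({jL, uL} : Set (LaurentSeries L)) := by
    intro g
    rw [pev1_eq_evJ]
    show aeval jL g ∈ _
    rw [aeval_eq_sum_range]
    refine Finset.sum_induction _ (· ∈ IntermediateField.adjoin L ({jL, uL} : Set (LaurentSeries L)))
      (fun a b ha hb => add_mem ha hb) (zero_mem _) (fun i _ => ?_)
    rw [Algebra.smul_def]
    exact mul_mem (IntermediateField.algebraMap_mem _ _) (pow_mem hj i)
  have h2 : ∀ P : L[X][X], pev2 jL uL P ∈
      IntermediateField.adjoin L ({jL, uL} : Set (LaurentSeries L)) := by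
    intro P
    rw [pev2_apply, eval₂_eq_sum_range]
    refine Finset.sum_induction _ (· ∈ IntermediateField.adjoin L ({jL, uL} : Set (LaurentSeries L)))
      (fun a b ha hb => add_mem ha hb) (zero_mem _) (fun i _ => ?_)
    exact mul_mem (h1 _) (pow_mem hu i)
  have hx : x = pev2 jL uL P * (pev1 jL g)⁻¹ := by
    rw [← hP, mul_assoc, mul_inv_cancel₀ hgj, mul_one]
  rw [hx]
  exact mul_mem (h2 P) (inv_mem (h1 g))

end

end Fermat.Agent.GaussVal
end MergeWrap_Lib_GaussVal_Rational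

section MergeWrap_Lib_GaussVal_Props -- from Lib/GaussVal/Props.lean

/-!
# Gauss valuation (cluster B): properties of `O_v` and `ρ`

Setting: a valuation triple `ι : R → L`, `r : R → k`; `jR uR : R((q))`; `χR ∈ R[Y][X]` monic of degree `n`
with `χR(jR,uR) = 0`; `1, ū, …, ū^{n-1}` independent over `k[j̄]` (`hind`).

* `rho_ker` (G3) : `ρ x = 0 → x = c · z`, `c ∈ 𝔪_R`, `z ∈ O_v`;
* `exists_normal_form` (G4) : every nonzero `x ∈ L(j)[u]` is `c · x = y`, `c ∈ Lˣ`, `y ∈ O_v`, `ρ y ≠ 0`;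
* `inv_mem_Ov`, `mem_or_inv_mem_Ov` (G5);
* `coeffMap_mem_Ov` : elements of `L(j)[u]` with coefficients in `R` lie in `O_v` (and `ρ` is the coefficientwise
  reduction on them, `rho_coeffMap`);
* `exists_rep_lt` : integral basis `1, u, …, u^{n-1}`;
* `rho_mem_range_iff` : `ρ(O_v) = k(j̄)[ū]`.
-/

set_option autoImplicit false

namespace Fermat.Agent.GaussVal

open Polynomial ModularCurve Fermat.Agent.S28

noncomputable section

variable {L R k : Type*} [Field L] [CommRing R] [Field k]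
variable {ι : R →+* L} {r : R →+* k}
variable {jR uR : LaurentSeries R}

theorem hahnC_ne_zero' {c : L} (hc : c ≠ 0) : (HahnSeries.C c : LaurentSeries L) ≠ 0 :=
  HahnSeries.C_ne_zero hc

theorem coeffMap_hahnC_mul (f : R →+* L) (b : R) (y : LaurentSeries R) :
    coeffMap f (HahnSeries.C b * y) = HahnSeries.C (f b) * coeffMap f y := by
  rw [map_mul, coeffMap_hahnC]

section Basic

variable (ι r jR uR)

theorem const_mem_Ov (a : R) : (HahnSeries.C (ι a) : LaurentSeries L) ∈ Ov ι r jR uR := by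
  refine inOv_of_eq ι r jR uR (C (C a)) ?_
  rw [pev2_C, pev1_C, coeffMap_hahnC]

theorem j_mem_Ov : coeffMap ι jR ∈ Ov ι r jR uR := by
  refine inOv_of_eq ι r jR uR (C X) ?_
  rw [pev2_C, pev1_X]

theorem u_mem_Ov : coeffMap ι uR ∈ Ov ι r jR uR := by
  refine inOv_of_eq ι r jR uR X ?_
  rw [pev2_X]

theorem jinv_mem_Ov (hj : coeffMap ι jR ≠ 0) : (coeffMap ι jR)⁻¹ ∈ Ov ι r jR uR := by
  refine ⟨X, ?_, 1, ?_⟩
  · rw [Polynomial.map_X]; exact X_ne_zero
  · rw [pev1_X, map_one, map_one, inv_mul_cancel₀ hj]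

end Basic

/-- `ρ` of a constant. -/
theorem rho_const (hι : Function.Injective ι) (hinj : Function.Injective (pev1 (coeffMap r jR)))
    (a : R) :
    rho ι r jR uR hι hinj ⟨HahnSeries.C (ι a), const_mem_Ov ι r jR uR a⟩ = HahnSeries.C (r a) := by
  have h := rho_coeffMap_pev2 (ι := ι) (r := r) (jR := jR) (uR := uR) hι hinj (C (C a))
  have e : coeffMap ι (pev2 jR uR (C (C a))) = HahnSeries.C (ι a) := by
    rw [pev2_C, pev1_C, coeffMap_hahnC]
  have e2 : coeffMap r (pev2 jR uR (C (C a))) = HahnSeries.C (r a) := by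
    rw [pev2_C, pev1_C, coeffMap_hahnC]
  rw [← e2, ← h]
  congr 1
  exact Subtype.ext e.symm

/-- **(G3) `ker ρ = 𝔪 · O_v`**. -/
theorem rho_ker (hv : VTriple ι r) {n : ℕ}
    (χR : R[X][X]) (hχm : χR.Monic) (hχd : χR.natDegree = n) (hn : 0 < n)
    (hχu : pev2 jR uR χR = 0)
    (hind : IndepUpTo (coeffMap r jR) (coeffMap r uR) n)
    (hinj : Function.Injective (pev1 (coeffMap r jR)))
    (x : ↥(Ov ι r jR uR)) (hx : rho ι r jR uR hv.inj hinj x = 0) :
    ∃ (b : R) (z : ↥(Ov ι r jR uR)), r b = 0 ∧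
      (x : LaurentSeries L) = HahnSeries.C (ι b) * (z : LaurentSeries L) := by
  obtain ⟨g, hg, P, hP⟩ := (mem_Ov_iff ι r jR uR).mp x.2
  rw [rho_eq hv.inj hinj x hg hP, div_eq_zero_iff] at hx
  have hP0 : coeffMap r (pev2 jR uR P) = 0 := hx.resolve_right (red_pev1_ne_zero hinj hg)
  obtain ⟨b, P', hb, hP'⟩ := reduction_kernel' hv χR hχm hχd hn hχu hind P hP0
  by_cases hb0 : b = 0
  · refine ⟨0, 0, map_zero r, ?_⟩
    rw [hb0, map_zero, zero_mul] at hP'
    rw [hP', map_zero] at hP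
    have hgj : coeffMap ι (pev1 jR g) ≠ 0 := by
      intro h0
      have h1 : pev1 jR g = 0 := coeffMap_injective hv.inj (by rw [h0, map_zero])
      exact red_pev1_ne_zero hinj hg (by rw [h1, map_zero])
    rw [(mul_eq_zero.mp hP).resolve_right hgj, map_zero, map_zero, zero_mul]
  have hιb : ι b ≠ 0 := fun h0 => hb0 (hv.inj (by rw [h0, map_zero]))
  have hCb : (HahnSeries.C (ι b) : LaurentSeries L) ≠ 0 := HahnSeries.C_ne_zero hιb
  have hz : InOv ι r jR uR ((x : LaurentSeries L) / HahnSeries.C (ι b)) := by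
    refine ⟨g, hg, P', ?_⟩
    rw [div_mul_eq_mul_div, hP, hP', coeffMap_hahnC_mul, mul_div_assoc, mul_comm,
      div_mul_cancel₀ _ hCb]
  refine ⟨b, ⟨_, hz⟩, hb, ?_⟩
  show (x : LaurentSeries L) = HahnSeries.C (ι b) * ((x : LaurentSeries L) / HahnSeries.C (ι b))
  rw [mul_div_cancel₀ _ hCb]

/-- `j` is transcendental over `L` as soon as `j̄` is transcendental over `k`. -/
theorem pev1_coeffMap_injective (hv : VTriple ι r)
    (hinj : Function.Injective (pev1 (coeffMap r jR))) :
    Function.Injective (pev1 (coeffMap ι jR)) := by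
  rw [injective_iff_map_eq_zero]
  intro g hg
  by_contra hg0
  obtain ⟨c, g₀, hc, hres, heq⟩ := hv.nrm1 g hg0
  have h1 : pev1 (coeffMap ι jR) (g₀.map ι) = 0 := by
    rw [← heq, map_mul, hg, mul_zero]
  have h3 : pev1 jR g₀ = 0 := by
    apply coeffMap_injective hv.inj
    rw [coeffMap_pev1, map_zero]
    exact h1
  apply hres
  apply hinj
  rw [← coeffMap_pev1, h3, map_zero, map_zero]

theorem natDegree_CC_mul {c : L} (hc : c ≠ 0) (P : L[X][X]) :
    (C (C c) * P).natDegree = P.natDegree :=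
  natDegree_C_mul (by rw [Ne, C_eq_zero]; exact hc)

/-- **(G4)** normal form of a nonzero element of `L(j)[u]`. -/
theorem exists_normal_form (hv : VTriple ι r) {n : ℕ}
    (χR : R[X][X]) (hχm : χR.Monic) (hχd : χR.natDegree = n) (hn : 0 < n)
    (hχu : pev2 jR uR χR = 0)
    (hind : IndepUpTo (coeffMap r jR) (coeffMap r uR) n)
    (hinj : Function.Injective (pev1 (coeffMap r jR)))
    {x : LaurentSeries L} (hxT : InTL (coeffMap ι jR) (coeffMap ι uR) x) (hx0 : x ≠ 0) :
    ∃ (c : L) (y : ↥(Ov ι r jR uR)), c ≠ 0 ∧ rho ι r jR uR hv.inj hinj y ≠ 0 ∧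
      HahnSeries.C c * x = (y : LaurentSeries L) := by
  classical
  obtain ⟨g, hg, P, hP⟩ := hxT
  have hιinj : Function.Injective ι := hv.inj
  have hι1 : Function.Injective (mapRingHom ι) := Polynomial.map_injective ι hιinj
  set χQ : L[X][X] := χR.map (mapRingHom ι) with hχQ
  have hχQm : χQ.Monic := hχm.map _
  have hχQd : χQ.natDegree = n := by
    rw [← hχd]; exact natDegree_map_eq_of_injective hι1 _
  have hχQ1 : χQ ≠ 1 := by
    intro h; rw [h, natDegree_one] at hχQd; omega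
  have hχQu : pev2 (coeffMap ι jR) (coeffMap ι uR) χQ = 0 := by
    rw [hχQ, ← coeffMap_pev2, hχu, map_zero]
  set P₁ := P %ₘ χQ with hP₁
  have hdiv : P₁ + χQ * (P /ₘ χQ) = P := modByMonic_add_div P χQ
  have hev : pev2 (coeffMap ι jR) (coeffMap ι uR) P = pev2 (coeffMap ι jR) (coeffMap ι uR) P₁ := by
    conv_lhs => rw [← hdiv]
    rw [map_add, map_mul, hχQu, zero_mul, add_zero]
  have hdeg : P₁.natDegree < n := by
    rw [← hχQd]; exact natDegree_modByMonic_lt P hχQm hχQ1
  have hinjQ := pev1_coeffMap_injective hv hinj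
  have hgj : pev1 (coeffMap ι jR) g ≠ 0 := fun h => hg (hinjQ (by rw [h, map_zero]))
  have hP₁0 : P₁ ≠ 0 := by
    intro h
    rw [hev, h, map_zero] at hP
    exact (mul_ne_zero hx0 hgj) hP
  obtain ⟨c₁, g₀, hc₁, hg₀, hgeq⟩ := hv.nrm1 g hg
  obtain ⟨c₂, P₀, hc₂, hP₀, hPeq⟩ := hv.nrm2 P₁ hP₁0
  have hdeg₀ : P₀.natDegree < n := by
    have e1 : P₀.natDegree = (P₀.map (mapRingHom ι)).natDegree :=
      (natDegree_map_eq_of_injective hι1 _).symm
    rw [e1, ← hPeq, natDegree_CC_mul hc₂]; exact hdeg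
  have hredP : coeffMap r (pev2 jR uR P₀) ≠ 0 := by
    intro h
    apply hP₀
    apply hind
    · exact lt_of_le_of_lt natDegree_map_le hdeg₀
    · rw [← coeffMap_pev2]; exact h
  -- evaluate the two normalisations
  have hgev : HahnSeries.C c₁ * pev1 (coeffMap ι jR) g = coeffMap ι (pev1 jR g₀) := by
    have := congrArg (pev1 (coeffMap ι jR)) hgeq
    rw [map_mul, pev1_C] at this
    rw [this, coeffMap_pev1]
  have hPev : HahnSeries.C c₂ * pev2 (coeffMap ι jR) (coeffMap ι uR) P₁ =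
      coeffMap ι (pev2 jR uR P₀) := by
    have := congrArg (pev2 (coeffMap ι jR) (coeffMap ι uR)) hPeq
    rw [map_mul, pev2_C, pev1_C] at this
    rw [this, coeffMap_pev2]
  have hC₁ : (HahnSeries.C c₁ : LaurentSeries L) ≠ 0 := HahnSeries.C_ne_zero hc₁
  have hc : c₂ / c₁ ≠ 0 := div_ne_zero hc₂ hc₁
  have hCdiv : (HahnSeries.C (c₂ / c₁) : LaurentSeries L) = HahnSeries.C c₂ / HahnSeries.C c₁ := by
    rw [map_div₀]
  set y : LaurentSeries L := HahnSeries.C (c₂ / c₁) * x with hy
  have hyeq : y * coeffMap ι (pev1 jR g₀) = coeffMap ι (pev2 jR uR P₀) := by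
    rw [hy, ← hgev, ← hPev, ← hev, ← hP, hCdiv]
    field_simp
  have hyB : InOv ι r jR uR y := ⟨g₀, hg₀, P₀, hyeq⟩
  refine ⟨c₂ / c₁, ⟨y, hyB⟩, hc, ?_, rfl⟩
  rw [rho_eq hv.inj hinj ⟨y, hyB⟩ hg₀ hyeq]
  exact div_ne_zero hredP (red_pev1_ne_zero hinj hg₀)

/-- A constant `c ∈ Lˣ` lying in `O_v` with nonzero reduction is a unit of `R`: `c⁻¹ ∈ ι(R)`. -/
theorem const_inv_of_mem (hv : VTriple ι r)
    (hinj : Function.Injective (pev1 (coeffMap r jR)))
    {c : L} (hc : c ≠ 0) (hmem : (HahnSeries.C c : LaurentSeries L) ∈ Ov ι r jR uR)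
    (hρ : rho ι r jR uR hv.inj hinj ⟨_, hmem⟩ ≠ 0) : ∃ a : R, ι a = c⁻¹ := by
  rcases hv.total c hc with ⟨a, ha⟩ | ⟨b, hb⟩
  · subst ha
    have hra : r a ≠ 0 := by
      intro h0
      apply hρ
      have h1 := rho_const (ι := ι) (r := r) (jR := jR) (uR := uR) hv.inj hinj a
      rw [h0, map_zero] at h1
      exact h1
    obtain ⟨a', ha'⟩ := hv.unit a hra
    refine ⟨a', ?_⟩
    have h1 : ι a * ι a' = 1 := by rw [← map_mul, ha', map_one]
    exact (eq_inv_of_mul_eq_one_right h1)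
  · exact ⟨b, hb⟩

/-- **(G5)** units of `O_v`. -/
theorem inv_mem_Ov (hv : VTriple ι r) {n : ℕ}
    (χR : R[X][X]) (hχm : χR.Monic) (hχd : χR.natDegree = n) (hn : 0 < n)
    (hχu : pev2 jR uR χR = 0)
    (hind : IndepUpTo (coeffMap r jR) (coeffMap r uR) n)
    (hinj : Function.Injective (pev1 (coeffMap r jR)))
    (x : ↥(Ov ι r jR uR)) (hx : rho ι r jR uR hv.inj hinj x ≠ 0) :
    (x : LaurentSeries L)⁻¹ ∈ Ov ι r jR uR := by
  have hx0 : (x : LaurentSeries L) ≠ 0 := by
    intro h0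
    apply hx
    have : x = 0 := Subtype.ext h0
    rw [this, map_zero]
  have hι1 : Function.Injective (mapRingHom ι) := Polynomial.map_injective ι hv.inj
  have hxT : InTL (coeffMap ι jR) (coeffMap ι uR) (x : LaurentSeries L) := by
    obtain ⟨g, hg, P, hP⟩ := (mem_Ov_iff ι r jR uR).mp x.2
    refine ⟨g.map ι, ?_, P.map (mapRingHom ι), ?_⟩
    · intro h0
      apply hg
      have : g = 0 := (Polynomial.map_injective ι hv.inj) (by rw [h0, Polynomial.map_zero])
      rw [this, Polynomial.map_zero]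
    · rw [← coeffMap_pev1, ← coeffMap_pev2]; exact hP
  have hinjQ := pev1_coeffMap_injective hv hinj
  have hχQu : pev2 (coeffMap ι jR) (coeffMap ι uR) (χR.map (mapRingHom ι)) = 0 := by
    rw [← coeffMap_pev2, hχu, map_zero]
  have hinvT := inTL_inv hinjQ (χR.map (mapRingHom ι)) (hχm.map _) hχQu hxT
  obtain ⟨c, y, hc, hy, hcy⟩ := exists_normal_form hv χR hχm hχd hn hχu hind hinj hinvT
    (inv_ne_zero hx0)
  -- `C c = x * y`
  have hCc : (HahnSeries.C c : LaurentSeries L) = (x : LaurentSeries L) * (y : LaurentSeries L) := by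
    rw [← hcy, mul_comm (HahnSeries.C c), ← mul_assoc, mul_inv_cancel₀ hx0, one_mul]
  have hmem : (HahnSeries.C c : LaurentSeries L) ∈ Ov ι r jR uR := by
    rw [hCc]; exact (x * y).2
  have hρ : rho ι r jR uR hv.inj hinj ⟨_, hmem⟩ ≠ 0 := by
    have e : (⟨_, hmem⟩ : ↥(Ov ι r jR uR)) = x * y := Subtype.ext hCc
    rw [e, map_mul]
    exact mul_ne_zero hx hy
  obtain ⟨a, ha⟩ := const_inv_of_mem hv hinj hc hmem hρ
  have hxinv : (x : LaurentSeries L)⁻¹ = HahnSeries.C (ι a) * (y : LaurentSeries L) := by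
    rw [ha, ← hcy, ← mul_assoc, ← map_mul, inv_mul_cancel₀ hc, map_one, one_mul]
  rw [hxinv]
  exact Subring.mul_mem _ (const_mem_Ov ι r jR uR a) y.2

/-- **(G5)** `O_v ∩ L(j)[u]` is a valuation ring of `L(j)[u]`. -/
theorem mem_or_inv_mem_Ov (hv : VTriple ι r) {n : ℕ}
    (χR : R[X][X]) (hχm : χR.Monic) (hχd : χR.natDegree = n) (hn : 0 < n)
    (hχu : pev2 jR uR χR = 0)
    (hind : IndepUpTo (coeffMap r jR) (coeffMap r uR) n)
    (hinj : Function.Injective (pev1 (coeffMap r jR)))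
    {x : LaurentSeries L} (hxT : InTL (coeffMap ι jR) (coeffMap ι uR) x) :
    x ∈ Ov ι r jR uR ∨ x⁻¹ ∈ Ov ι r jR uR := by
  rcases eq_or_ne x 0 with rfl | hx0
  · exact Or.inl (Subring.zero_mem _)
  obtain ⟨c, y, hc, hy, hcy⟩ := exists_normal_form hv χR hχm hχd hn hχu hind hinj hxT hx0
  rcases hv.total c hc with ⟨a, ha⟩ | ⟨b, hb⟩
  · right
    have hyinv := inv_mem_Ov hv χR hχm hχd hn hχu hind hinj y hy
    have : x⁻¹ = HahnSeries.C (ι a) * (y : LaurentSeries L)⁻¹ := by
      rw [← hcy, ha, mul_inv, ← mul_assoc, mul_inv_cancel₀ (HahnSeries.C_ne_zero hc), one_mul]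
    rw [this]
    exact Subring.mul_mem _ (const_mem_Ov ι r jR uR a) hyinv
  · left
    have : x = HahnSeries.C (ι b) * (y : LaurentSeries L) := by
      rw [hb, ← hcy, ← mul_assoc, ← map_mul, inv_mul_cancel₀ hc, map_one, one_mul]
    rw [this]
    exact Subring.mul_mem _ (const_mem_Ov ι r jR uR b) y.2

/-- Elements of `L(j)[u]` with coefficients in `R` lie in `O_v`. -/
theorem coeffMap_mem_Ov (hv : VTriple ι r) {n : ℕ}
    (χR : R[X][X]) (hχm : χR.Monic) (hχd : χR.natDegree = n) (hn : 0 < n)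
    (hχu : pev2 jR uR χR = 0)
    (hind : IndepUpTo (coeffMap r jR) (coeffMap r uR) n)
    (hinj : Function.Injective (pev1 (coeffMap r jR)))
    (y : LaurentSeries R) (hyT : InTL (coeffMap ι jR) (coeffMap ι uR) (coeffMap ι y)) :
    coeffMap ι y ∈ Ov ι r jR uR := by
  rcases eq_or_ne (coeffMap ι y) 0 with h0 | hx0
  · rw [h0]; exact Subring.zero_mem _
  obtain ⟨c, z, hc, hz, hcz⟩ := exists_normal_form hv χR hχm hχd hn hχu hind hinj hyT hx0
  rcases hv.total c hc with ⟨a, ha⟩ | ⟨b, hb⟩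
  · by_cases hra : r a = 0
    · exfalso
      apply hz
      have hz' : (z : LaurentSeries L) = coeffMap ι (HahnSeries.C a * y) := by
        rw [coeffMap_hahnC_mul, ha, hcz]
      have hmem : coeffMap ι (HahnSeries.C a * y) ∈ Ov ι r jR uR := by rw [← hz']; exact z.2
      have e : z = ⟨_, hmem⟩ := Subtype.ext hz'
      rw [e, rho_coeffMap hv.inj hinj _ hmem, map_mul, coeffMap_hahnC, hra, map_zero, zero_mul]
    · obtain ⟨a', ha'⟩ := hv.unit a hra
      have h1 : ι a * ι a' = 1 := by rw [← map_mul, ha', map_one]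
      have h2 : coeffMap ι y = HahnSeries.C (ι a') * (z : LaurentSeries L) := by
        rw [← hcz, ← mul_assoc, ← map_mul, ← ha, mul_comm (ι a'), h1, map_one, one_mul]
      rw [h2]
      exact Subring.mul_mem _ (const_mem_Ov ι r jR uR a') z.2
  · have h2 : coeffMap ι y = HahnSeries.C (ι b) * (z : LaurentSeries L) := by
      rw [hb, ← hcz, ← mul_assoc, ← map_mul, inv_mul_cancel₀ hc, map_one, one_mul]
    rw [h2]
    exact Subring.mul_mem _ (const_mem_Ov ι r jR uR b) z.2

/-- **integral basis**: every element of `O_v` is `P(j,u)/g(j)` with `deg_X P < n`. -/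
theorem exists_rep_lt {n : ℕ}
    (χR : R[X][X]) (hχm : χR.Monic) (hχd : χR.natDegree = n) (hn : 0 < n)
    (hχu : pev2 jR uR χR = 0)
    {x : LaurentSeries L} (hx : x ∈ Ov ι r jR uR) :
    ∃ g : R[X], g.map r ≠ 0 ∧ ∃ P : R[X][X], P.natDegree < n ∧
      x * coeffMap ι (pev1 jR g) = coeffMap ι (pev2 jR uR P) := by
  obtain ⟨g, hg, P, hP⟩ := hx
  have hχ1 : χR ≠ 1 := by
    intro h
    rw [h, natDegree_one] at hχd
    omega
  refine ⟨g, hg, P %ₘ χR, ?_, ?_⟩
  · rw [← hχd]; exact natDegree_modByMonic_lt P hχm hχ1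
  · have hdiv : P %ₘ χR + χR * (P /ₘ χR) = P := modByMonic_add_div P χR
    have hev : pev2 jR uR P = pev2 jR uR (P %ₘ χR) := by
      conv_lhs => rw [← hdiv]
      rw [map_add, map_mul, hχu, zero_mul, add_zero]
    rw [hP, hev]

/-- **residue field**: `ρ(O_v)` is exactly `k(j̄)[ū]` (rational representation over `k`). -/
theorem rho_mem_range_iff (hv : VTriple ι r) (hr : Function.Surjective r)
    (hinj : Function.Injective (pev1 (coeffMap r jR))) (z : LaurentSeries k) :
    (∃ x : ↥(Ov ι r jR uR), rho ι r jR uR hv.inj hinj x = z) ↔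
      InTL (coeffMap r jR) (coeffMap r uR) z := by
  constructor
  · rintro ⟨x, rfl⟩
    obtain ⟨g, hg, P, hP⟩ := (mem_Ov_iff ι r jR uR).mp x.2
    refine ⟨g.map r, hg, P.map (mapRingHom r), ?_⟩
    rw [rho_eq hv.inj hinj x hg hP, ← coeffMap_pev1, ← coeffMap_pev2,
      div_mul_cancel₀ _ (red_pev1_ne_zero hinj hg)]
  · rintro ⟨g, hg, P, hP⟩
    obtain ⟨g₀, rfl⟩ := Polynomial.map_surjective r hr g
    obtain ⟨P₀, rfl⟩ := Polynomial.map_surjective (mapRingHom r)
      (Polynomial.map_surjective r hr) P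
    have hg' : coeffMap ι (pev1 jR g₀) ≠ 0 := by
      intro h0
      have h1 : pev1 jR g₀ = 0 := coeffMap_injective hv.inj (by rw [h0, map_zero])
      exact red_pev1_ne_zero hinj hg (by rw [h1, map_zero])
    have hmem : InOv ι r jR uR (coeffMap ι (pev2 jR uR P₀) / coeffMap ι (pev1 jR g₀)) :=
      ⟨g₀, hg, P₀, div_mul_cancel₀ _ hg'⟩
    refine ⟨⟨_, hmem⟩, ?_⟩
    rw [rho_eq hv.inj hinj ⟨_, hmem⟩ hg (div_mul_cancel₀ _ hg'),
      div_eq_iff (red_pev1_ne_zero hinj hg), coeffMap_pev2, coeffMap_pev1]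
    exact hP.symm

end

end Fermat.Agent.GaussVal
end MergeWrap_Lib_GaussVal_Props
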